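import Fermat.Agent.Lib.RR.H439.Adeles

/-!
# RR library, layer L4: `H¹(D)` is finite-dimensional, `ℓ(D) - i(D) = deg D + 1 - g` (helper439)

Hypothesis-explicit on Riemann's theorem (layer L3): see `finite_H1_and_formula`.
-/

set_option autoImplicit false

noncomputable section

open AlgebraicCurve

namespace Fermat.Agent.Lib.RR.H439

open Fermat.Agent.Lib.RR

variable {K F : Type*} [Field K] [Field F] [Algebra K F]

/-! ### Linear algebra: one step in a chain of quotients -/

/-- If `φ : V → W` is onto with kernel spanned by one vector `x` and `W` is finite-dimensional,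
then so is `V`, and `dim V = dim W + (0 or 1)`. -/
theorem finrank_of_ker_eq_span {V W : Type*} [AddCommGroup V] [Module K V] [AddCommGroup W]
    [Module K W] (φ : V →ₗ[K] W) (hφ : Function.Surjective φ) (x : V)
    (hker : LinearMap.ker φ = Submodule.span K {x}) [Module.Finite K W] :
    Module.Finite K V ∧
      (x = 0 → Module.finrank K V = Module.finrank K W) ∧
      (x ≠ 0 → Module.finrank K V = Module.finrank K W + 1) := by
  have hexact : Function.Exact (Submodule.span K {x}).subtype φ := by
    rw [LinearMap.exact_iff, hker, Submodule.range_subtype]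
  have hfin : Module.Finite K V := Module.Finite.of_exact hexact hφ
  refine ⟨hfin, ?_, ?_⟩
  · intro hx
    have h1 := LinearMap.finrank_range_add_finrank_ker φ
    rw [LinearMap.range_eq_top.mpr hφ, finrank_top, hker, hx, Submodule.span_zero_singleton,
      finrank_bot, add_zero] at h1
    exact h1.symm
  · intro hx
    have h1 := LinearMap.finrank_range_add_finrank_ker φ
    rw [LinearMap.range_eq_top.mpr hφ, finrank_top, hker, finrank_span_singleton hx] at h1
    exact h1.symm

/-- One step for quotients by submodules: `S' = S ⊔ K a`. -/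
theorem finrank_quotient_step {M : Type*} [AddCommGroup M] [Module K M] (S S' : Submodule K M)
    (a : M) (hle : S ≤ S') (ha : a ∈ S') (hle' : S' ≤ S ⊔ Submodule.span K {a})
    [Module.Finite K (M ⧸ S')] :
    Module.Finite K (M ⧸ S) ∧
      (a ∈ S → Module.finrank K (M ⧸ S) = Module.finrank K (M ⧸ S')) ∧
      (a ∉ S → Module.finrank K (M ⧸ S) = Module.finrank K (M ⧸ S') + 1) := by
  have hS' : S' = S ⊔ Submodule.span K {a} :=
    le_antisymm hle' (sup_le hle ((Submodule.span_singleton_le_iff_mem a S').mpr ha))
  have hcomap : S ≤ Submodule.comap (LinearMap.id : M →ₗ[K] M) S' := by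
    rw [Submodule.comap_id]; exact hle
  set φ : (M ⧸ S) →ₗ[K] (M ⧸ S') := S.mapQ S' LinearMap.id hcomap with hφdef
  have hφ : Function.Surjective φ := by
    intro y
    obtain ⟨m, rfl⟩ := Submodule.Quotient.mk_surjective S' y
    exact ⟨Submodule.Quotient.mk m, by simp [hφdef]⟩
  have hker : LinearMap.ker φ = Submodule.span K {S.mkQ a} := by
    rw [hφdef, Submodule.ker_mapQ, Submodule.comap_id, hS', Submodule.map_sup,
      Submodule.map_span, Set.image_singleton]
    rw [Submodule.mkQ_map_self, bot_sup_eq]
  obtain ⟨h1, h2, h3⟩ := finrank_of_ker_eq_span φ hφ (S.mkQ a) hker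
  have hiff : (S.mkQ a = 0) ↔ a ∈ S := by
    rw [Submodule.mkQ_apply, Submodule.Quotient.mk_eq_zero]
  exact ⟨h1, fun h => h2 (hiff.mpr h), fun h => h3 (fun h0 => h (hiff.mp h0))⟩

/-! ### One step for `H¹` -/

section FF1

variable [hFF : FF1 K F]

/-- **One step**: if `H¹(D + P)` is finite-dimensional then so is `H¹(D)` and
`i(D) + ℓ(D + P) = i(D + P) + ℓ(D) + 1`. -/
theorem H1_step (D : Divisor K F) (v : Place K F) [Module.Finite K (H1 (D + prim v))] :
    Module.Finite K (H1 D) ∧
      Module.finrank K (H1 D) + ell (D + prim v)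
        = Module.finrank K (H1 (D + prim v)) + ell D + 1 := by
  classical
  obtain ⟨t, ht0, ht⟩ := exists_ord_eq v (-(D v + 1))
  have hv := deg_eq_one v
  have hDle : D ≤ D + prim v := by
    rw [Finsupp.le_def]
    intro w
    by_cases hw : w = v
    · subst hw; simp
    · simp [prim_apply_of_ne hw]
  have hle : repartitionsOf D ⊔ principalRepartitions K F
      ≤ repartitionsOf (D + prim v) ⊔ principalRepartitions K F :=
    sup_le_sup_right (repartitionsOf_mono hDle) _
  have ha : single v t ∈ repartitionsOf (D + prim v) ⊔ principalRepartitions K F :=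
    Submodule.mem_sup_left (single_mem_repartitionsOf v D ht)
  have hle' : repartitionsOf (D + prim v) ⊔ principalRepartitions K F
      ≤ (repartitionsOf D ⊔ principalRepartitions K F) ⊔ Submodule.span K {single v t} := by
    refine sup_le ?_ (le_sup_of_le_left le_sup_right)
    refine (repartitionsOf_add_prim_le v hv D ht0 ht).trans ?_
    exact sup_le (le_sup_of_le_left le_sup_left) le_sup_right
  obtain ⟨hfin, hrank0, hrank1⟩ := finrank_quotient_step
    (repartitionsOf D ⊔ principalRepartitions K F)
    (repartitionsOf (D + prim v) ⊔ principalRepartitions K F) (single v t) hle ha hle'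
  refine ⟨hfin, ?_⟩
  have hLle : riemannRochSpace D ≤ riemannRochSpace (D + prim v) := L_mono hDle
  by_cases hL : riemannRochSpace (D + prim v) ≤ riemannRochSpace D
  · have hnot : single v t ∉ repartitionsOf D ⊔ principalRepartitions K F := fun h =>
      (not_le_of_single_mem_sup v D ht0 ht h) hL
    have hell : ell (D + prim v) = ell D := by
      unfold ell; rw [le_antisymm hL hLle]
    have : Module.finrank K (H1 D) = Module.finrank K (H1 (D + prim v)) + 1 := hrank1 hnot
    omega
  · have hmem := single_mem_sup_of_not_le v hv D ht0 ht hL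
    have hlt : ell D < ell (D + prim v) := by
      unfold ell
      exact Submodule.finrank_lt_finrank_of_lt (lt_of_le_not_ge hLle hL)
    have hle2 := ell_add_prim_le D v
    have : Module.finrank K (H1 D) = Module.finrank K (H1 (D + prim v)) := hrank0 hmem
    omega

/-! ### Vanishing of `H¹` above a divisor attaining Riemann's bound -/

/-- Every repartition lies in `𝔸(B₁)` for some `B₁ ≥ B`. -/
theorem exists_ge_mem_repartitionsOf (B : Divisor K F) (α : ↥(repartitions K F)) :
    ∃ B₁ : Divisor K F, B ≤ B₁ ∧ α ∈ repartitionsOf B₁ := by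
  classical
  have hfin : {v : Place K F | v.ord ((α : Place K F → F) v) < 0}.Finite :=
    mem_repartitions_iff.mp α.2
  set T : Finset (Place K F) := hfin.toFinset ∪ B.support with hT
  have hsupp : ∀ w : Place K F,
      max (B w) (-w.ord ((α : Place K F → F) w)) ≠ 0 → w ∈ T := by
    intro w hw
    by_contra hwT
    rw [hT, Finset.mem_union, not_or, Set.Finite.mem_toFinset, Finsupp.mem_support_iff,
      not_not] at hwT
    have h1 : 0 ≤ w.ord ((α : Place K F → F) w) := not_lt.mp hwT.1
    apply hw
    rw [hwT.2]
    exact max_eq_left (by omega)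
  refine ⟨Finsupp.onFinset T (fun w => max (B w) (-w.ord ((α : Place K F → F) w))) hsupp,
    ?_, ?_⟩
  · rw [Finsupp.le_def]
    intro w
    rw [Finsupp.onFinset_apply]
    exact le_max_left _ _
  · rw [mem_repartitionsOf_iff]
    intro w
    right
    rw [Finsupp.onFinset_apply]
    have := le_max_right (B w) (-w.ord ((α : Place K F → F) w))
    omega

/-- If `B` attains Riemann's bound, then so does every `D ≥ B`. -/
theorem ell_eq_of_attains (g : ℤ)
    (hR : ∀ D : Divisor K F, Divisor.degree D + 1 - g ≤ ell D)
    {B D : Divisor K F} (hB : (ell B : ℤ) = Divisor.degree B + 1 - g) (h : B ≤ D) :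
    (ell D : ℤ) = Divisor.degree D + 1 - g := by
  have h1 := degree_sub_ell_mono h
  have h2 := hR D
  omega

/-- **Vanishing**: if `B` attains Riemann's bound then `𝔸 = 𝔸(B) + F`. -/
theorem sup_eq_top_of_attains (g : ℤ)
    (hR : ∀ D : Divisor K F, Divisor.degree D + 1 - g ≤ ell D)
    (B : Divisor K F) (hB : (ell B : ℤ) = Divisor.degree B + 1 - g) :
    repartitionsOf B ⊔ principalRepartitions K F = ⊤ := by
  have key : ∀ D', B ≤ D' →
      repartitionsOf D' ≤ repartitionsOf B ⊔ principalRepartitions K F := by
    refine induction_ge B le_sup_left ?_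
    intro D' v hle ih
    obtain ⟨t, ht0, ht⟩ := exists_ord_eq v (-(D' v + 1))
    have hv := deg_eq_one v
    have hD'le : D' ≤ D' + prim v := by
      rw [Finsupp.le_def]
      intro w
      by_cases hw : w = v
      · subst hw; simp
      · simp [prim_apply_of_ne hw]
    have hl1 := ell_eq_of_attains g hR hB hle
    have hl2 := ell_eq_of_attains g hR hB (hle.trans hD'le)
    rw [map_add, degree_prim'] at hl2
    have hnot : ¬ riemannRochSpace (D' + prim v) ≤ riemannRochSpace D' := by
      intro hL
      have : ell (D' + prim v) ≤ ell D' := Submodule.finrank_mono hL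
      omega
    have hmem := single_mem_sup_of_not_le v hv D' ht0 ht hnot
    refine (repartitionsOf_add_prim_le v hv D' ht0 ht).trans (sup_le ih ?_)
    rw [Submodule.span_singleton_le_iff_mem]
    exact (sup_le ih le_sup_right : repartitionsOf D' ⊔ principalRepartitions K F ≤ _) hmem
  rw [eq_top_iff]
  intro α _
  obtain ⟨B₁, hB₁, hα⟩ := exists_ge_mem_repartitionsOf B α
  exact key B₁ hB₁ hα

/-! ### The main theorem of layer L4 -/

/-- Step down: from `D + P` to `D`. -/
theorem step_down (g : ℤ) (X Y : Divisor K F) (v : Place K F) (hY : Y = X + prim v)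
    (h : Module.Finite K (H1 Y) ∧
      (ell Y : ℤ) - Module.finrank K (H1 Y) = Divisor.degree Y + 1 - g) :
    Module.Finite K (H1 X) ∧
      (ell X : ℤ) - Module.finrank K (H1 X) = Divisor.degree X + 1 - g := by
  subst hY
  obtain ⟨hfin, hform⟩ := h
  obtain ⟨hfin', hstep⟩ := H1_step X v
  refine ⟨hfin', ?_⟩
  rw [map_add, degree_prim'] at hform
  omega

/-- **L4.1 + L4.2** (hypothesis-explicit): if `g` is a constant for which Riemann's inequality
holds and is attained, then for every divisor `D` the space `H¹(D)` is finite-dimensional and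
`ℓ(D) - dim H¹(D) = deg D + 1 - g`. -/
theorem finite_H1_and_formula (g : ℤ)
    (hR : ∀ D : Divisor K F, Divisor.degree D + 1 - g ≤ ell D)
    (D₀ : Divisor K F) (h₀ : (ell D₀ : ℤ) = Divisor.degree D₀ + 1 - g) (D : Divisor K F) :
    Module.Finite K (H1 D) ∧
      (ell D : ℤ) - Module.finrank K (H1 D) = Divisor.degree D + 1 - g := by
  -- a divisor above `D` attaining the bound
  set B : Divisor K F := D ⊔ D₀ with hBdef
  have hDB : D ≤ B := le_sup_left
  have hB : (ell B : ℤ) = Divisor.degree B + 1 - g := ell_eq_of_attains g hR h₀ le_sup_right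
  have htop := sup_eq_top_of_attains g hR B hB
  have hsub : Subsingleton (H1 B) := by
    rw [Submodule.Quotient.subsingleton_iff]
    exact htop
  have hPB : Module.Finite K (H1 B) ∧
      (ell B : ℤ) - Module.finrank K (H1 B) = Divisor.degree B + 1 - g := by
    refine ⟨inferInstance, ?_⟩
    rw [Module.finrank_zero_of_subsingleton, hB]
    simp
  -- descend from `B` to `D`
  have key : ∀ E, D ≤ E →
      (Module.Finite K (H1 (B + D - E)) ∧
        (ell (B + D - E) : ℤ) - Module.finrank K (H1 (B + D - E))
          = Divisor.degree (B + D - E) + 1 - g) := by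
    refine induction_ge D ?_ ?_
    · rw [add_sub_cancel_right]; exact hPB
    · intro E v _ ih
      exact step_down g (B + D - (E + prim v)) (B + D - E) v (by abel) ih
  have := key B hDB
  rwa [add_sub_cancel_left] at this

end FF1

end Fermat.Agent.Lib.RR.H439
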