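import Fermat.Agent.Lib.RR.Duality
import Fermat.Agent.Lib.RR.H439.H1

/-!
# Strong approximation inside Riemann–Roch spaces (vanishing of `H¹` in large degree)

(helper439, cell A3 / pieces D5, D8(b): "the jet matrix has full rank".)

* `sup_eq_top_of_degree_gt` : `deg D > 2g - 2` ⟹ `𝔸 = 𝔸(D) + F`.
* `exists_approx`           : `deg D > 2g - 2`, `S` finite, targets `φ v` (`v ∈ S`) ⟹ there is
                              `f ∈ F` with `ord_v (f - φ v) ≥ -D(v)` on `S` and `ord_v f ≥ -D(v)`
                              off `S`.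
* `exists_mem_L_approx`     : interpolation of jets inside `L(B)`: if `D ≥ 0` on `S`,
                              `D = 0` off `S`, `deg (B - D) > 2g - 2` and the targets satisfy
                              `ord_v (φ v) ≥ -B(v)`, then some `f ∈ L(B)` has
                              `ord_v (f - φ v) ≥ D(v) - B(v)` for all `v ∈ S`.
-/

set_option autoImplicit false

noncomputable section

open AlgebraicCurve

namespace Fermat.Agent.Lib.RR.H439

open Fermat.Agent.Lib.RR

variable {K F : Type*} [Field K] [Field F] [Algebra K F] [FF1 K F]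

/-- **Vanishing of `H¹`**: if `deg D > 2g - 2` then `𝔸 = 𝔸(D) + F`. -/
theorem sup_eq_top_of_degree_gt {D : Divisor K F}
    (hD : 2 * (genusFF K F : ℤ) - 2 < Divisor.degree D) :
    repartitionsOf D ⊔ principalRepartitions K F = ⊤ :=
  sup_eq_top_of_attains (genusFF K F : ℤ) (fun D' => riemann_inequality_genusFF D') D
    (ell_eq_of_degree_gt hD)

open Classical in
/-- **Strong approximation**: if `deg D > 2g - 2`, then for every finite set `S` of places and
arbitrary targets `φ v ∈ F` there is `f ∈ F` with `ord_v (f - φ v) ≥ -D(v)` for `v ∈ S` and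
`ord_v f ≥ -D(v)` for `v ∉ S`. -/
theorem exists_approx {D : Divisor K F}
    (hD : 2 * (genusFF K F : ℤ) - 2 < Divisor.degree D) (S : Finset (Place K F))
    (φ : Place K F → F) :
    ∃ f : F, (∀ v ∈ S, f - φ v = 0 ∨ -D v ≤ v.ord (f - φ v)) ∧
      ∀ v ∉ S, f = 0 ∨ -D v ≤ v.ord f := by
  -- the repartition `α = φ` on `S`, `0` elsewhere
  let α₀ : Place K F → F := fun v => if v ∈ S then φ v else 0
  have hα₀ : α₀ ∈ repartitions K F := by
    apply mem_repartitions_of_finite_ord
    refine (Finset.finite_toSet S).subset fun v hv => ?_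
    by_contra hvS
    have hv' : v.ord (α₀ v) < 0 := hv
    have : α₀ v = 0 := if_neg hvS
    rw [this, v.ord_zero] at hv'
    exact lt_irrefl _ hv'
  let α : ↥(repartitions K F) := ⟨α₀, hα₀⟩
  have hmem : α ∈ repartitionsOf D ⊔ principalRepartitions K F := by
    rw [sup_eq_top_of_degree_gt hD]; trivial
  obtain ⟨β, hβ, γ, hγ, hsum⟩ := Submodule.mem_sup.mp hmem
  obtain ⟨f, hf⟩ := mem_principalRepartitions_iff.mp hγ
  rw [mem_repartitionsOf_iff] at hβ
  have hval : ∀ v, (β : Place K F → F) v = α₀ v - f := by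
    intro v
    have h1 := congrArg (fun x : ↥(repartitions K F) => (x : Place K F → F) v) hsum
    simp only [coe_add_apply] at h1
    have h2 : (γ : Place K F → F) v = f := by rw [hf]
    rw [h2] at h1
    have h3 : (α : Place K F → F) v = α₀ v := rfl
    rw [h3] at h1
    rw [← h1]; ring
  refine ⟨f, fun v hv => ?_, fun v hv => ?_⟩
  · have h := hβ v
    rw [hval v] at h
    have hα : α₀ v = φ v := if_pos hv
    rw [hα] at h
    rcases h with h | h
    · left
      rw [← neg_sub, h, neg_zero]
    · right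
      rw [← neg_sub, ord_neg]
      exact h
  · have h := hβ v
    rw [hval v] at h
    have hα : α₀ v = 0 := if_neg hv
    rw [hα, zero_sub] at h
    rcases h with h | h
    · left
      exact neg_eq_zero.mp h
    · right
      rwa [ord_neg] at h

/-- **Interpolation of jets in `L(B)`**.  Let `D` be a divisor with `D ≥ 0` on the finite set `S`
and `D = 0` off `S`, and assume `deg (B - D) > 2g - 2`.  For arbitrary targets `φ v ∈ F`
(`v ∈ S`) with `ord_v (φ v) ≥ -B(v)` there is `f ∈ L(B)` with
`ord_v (f - φ v) ≥ D(v) - B(v)` for all `v ∈ S`. -/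
theorem exists_mem_L_approx {B D : Divisor K F} (S : Finset (Place K F))
    (hDS : ∀ v ∈ S, 0 ≤ D v) (hD0 : ∀ v ∉ S, D v = 0)
    (hdeg : 2 * (genusFF K F : ℤ) - 2 < Divisor.degree (B - D))
    (φ : Place K F → F) (hφ : ∀ v ∈ S, φ v = 0 ∨ -B v ≤ v.ord (φ v)) :
    ∃ f ∈ riemannRochSpace B, ∀ v ∈ S, f - φ v = 0 ∨ D v - B v ≤ v.ord (f - φ v) := by
  obtain ⟨f, h1, h2⟩ := exists_approx hdeg S φ
  simp only [Finsupp.coe_sub, Pi.sub_apply, neg_sub] at h1 h2
  refine ⟨f, ?_, h1⟩
  rw [mem_L_iff]
  intro v
  by_cases hv : v ∈ S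
  · -- `f = (f - φ v) + φ v`
    have hdec : f = (f - φ v) + φ v := by ring
    have hD := hDS v hv
    have ha : f - φ v = 0 ∨ -B v ≤ v.ord (f - φ v) := by
      rcases h1 v hv with h | h
      · exact Or.inl h
      · right; omega
    have := ord_add_of_le v ha (hφ v hv)
    rwa [← hdec] at this
  · have := h2 v hv
    rw [hD0 v hv] at this
    rcases this with h | h
    · exact Or.inl h
    · right; omega

end Fermat.Agent.Lib.RR.H439
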