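import Fermat.Agent.Lib.RR.Duality
import Fermat.Agent.Lib.RR.H638.NonSpecial

/-!
# Riemann–Roch corollaries: base points, generic members, the base-point-free pencil trick

(helper439, cell A3 / piece D5 of `coord/A3-helper979.md`; route independent.)

Setting: `[FF1 K F]` (function field of one variable, all places of degree one), `g = genusFF K F`.

* `ell_sub_prim_add_one`       : `deg E ≥ 2g` ⟹ `ℓ(E - P) + 1 = ℓ(E)`.
* `exists_mem_L_ord_eq`        : `deg E ≥ 2g` ⟹ `P` is not a base point of `|E|`.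
* `exists_mem_L_forall_ord_eq` : (`K` infinite) a member of `|E|` avoiding a finite set of places.
* `exists_two_members`         : (`K` infinite) two members of `|E|` without common zero, both
                                 avoiding a given finite set.
* `pencil_trick`               : `β₁ α₂ = β₂ α₁`, `α₁, α₂` without common zero ⟹
                                 `(β₁, β₂) = γ (α₁, α₂)` with `γ ∈ L(B - E)`.
* `exists_eq_mul_add_mul`      : `L(B) α₁ + L(B) α₂ = L(B + E)` if `deg (B - E) > 2g - 2`.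
* `exists_effective`           : `deg D ≥ g` ⟹ the class of `D` is effective.
* `eq_of_effective_of_ell_eq_one` : uniqueness of the effective representative when `ℓ = 1`.
* `ell_eq_ell_sub_add_degree`  : `ℓ(B) = ℓ(B - D) + deg D` if `deg (B - D) > 2g - 2`.
-/

set_option autoImplicit false

noncomputable section

open AlgebraicCurve

namespace Fermat.Agent.Lib.RR.H439

open Fermat.Agent.Lib.RR

variable {K F : Type*} [Field K] [Field F] [Algebra K F]

section Basic

/-- An element of `L(E) ∖ L(E - P)` has order exactly `-E(P)` at `P`. -/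
theorem ord_eq_of_mem_of_not_mem_sub (E : Divisor K F) (v : Place K F) {f : F}
    (hf : f ∈ riemannRochSpace E) (hf' : f ∉ riemannRochSpace (E - prim v)) :
    v.ord f = -E v := by
  have h1 : f ∈ riemannRochSpace ((E - prim v) + prim v) := by rwa [sub_add_cancel]
  have := H638.ord_eq_of_mem_of_not_mem (E - prim v) v h1 hf'
  rw [this]
  simp only [Finsupp.coe_sub, Pi.sub_apply, prim_apply_self]
  ring

/-- Conversely, an element of order `-E(P)` at `P` is not in `L(E - P)`. -/
theorem not_mem_sub_of_ord_eq (E : Divisor K F) (v : Place K F) {f : F} (hf0 : f ≠ 0)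
    (h : v.ord f = -E v) : f ∉ riemannRochSpace (E - prim v) := by
  intro hmem
  have := (mem_L_iff.mp hmem v).resolve_left hf0
  simp only [Finsupp.coe_sub, Pi.sub_apply, prim_apply_self] at this
  omega

theorem sub_prim_le (E : Divisor K F) (v : Place K F) : E - prim v ≤ E := by
  rw [Finsupp.le_def]
  intro w
  simp only [Finsupp.coe_sub, Pi.sub_apply]
  by_cases hw : w = v
  · subst hw; rw [prim_apply_self]; omega
  · rw [prim_apply_of_ne hw]; omega

end Basic

section RR

variable [FF1 K F]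

/-- `deg E ≥ 2g` ⟹ `ℓ(E - P) + 1 = ℓ(E)`. -/
theorem ell_sub_prim_add_one {E : Divisor K F}
    (hE : 2 * (genusFF K F : ℤ) ≤ Divisor.degree E) (v : Place K F) :
    ell (E - prim v) + 1 = ell E := by
  have h1 : (ell E : ℤ) = Divisor.degree E + 1 - (genusFF K F : ℤ) :=
    ell_eq_of_degree_gt (by omega)
  have h2 : (ell (E - prim v) : ℤ) = Divisor.degree (E - prim v) + 1 - (genusFF K F : ℤ) :=
    ell_eq_of_degree_gt (by rw [map_sub, degree_prim']; omega)
  rw [map_sub, degree_prim'] at h2
  omega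

/-- `deg E ≥ 2g` ⟹ `L(E - P)` is a proper subspace of `L(E)`. -/
theorem exists_mem_not_mem_sub {E : Divisor K F}
    (hE : 2 * (genusFF K F : ℤ) ≤ Divisor.degree E) (v : Place K F) :
    ∃ f ∈ riemannRochSpace E, f ∉ riemannRochSpace (E - prim v) := by
  by_contra hcon
  push Not at hcon
  have hle : riemannRochSpace E ≤ riemannRochSpace (E - prim v) := fun f hf => hcon f hf
  have := Submodule.finrank_mono hle
  have h2 := ell_sub_prim_add_one hE v
  unfold ell at h2
  omega

/-- **No base points**: if `deg E ≥ 2g` then for every place `P` some member of `L(E)` has order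
exactly `-E(P)` at `P`. -/
theorem exists_mem_L_ord_eq {E : Divisor K F}
    (hE : 2 * (genusFF K F : ℤ) ≤ Divisor.degree E) (v : Place K F) :
    ∃ f ∈ riemannRochSpace E, f ≠ 0 ∧ v.ord f = -E v := by
  obtain ⟨f, hf, hf'⟩ := exists_mem_not_mem_sub hE v
  refine ⟨f, hf, ?_, ord_eq_of_mem_of_not_mem_sub E v hf hf'⟩
  rintro rfl
  exact hf' (Submodule.zero_mem _)

/-- **Generic members**: over an infinite constant field, if `deg E ≥ 2g` then for every finite
set `S` of places some member of `L(E)` has order exactly `-E(P)` at all `P ∈ S`. -/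
theorem exists_mem_L_forall_ord_eq [Infinite K] {E : Divisor K F}
    (hE : 2 * (genusFF K F : ℤ) ≤ Divisor.degree E) (S : Finset (Place K F)) :
    ∃ f ∈ riemannRochSpace E, f ≠ 0 ∧ ∀ v ∈ S, v.ord f = -E v := by
  classical
  -- the proper subspaces `L(E - P) ∩ L(E)` of `L(E)`, together with `⊥`
  let p : Place K F → Subspace K (riemannRochSpace E) := fun v =>
    Submodule.comap (riemannRochSpace E).subtype (riemannRochSpace (E - prim v))
  let s : Finset (Subspace K (riemannRochSpace E)) := insert ⊥ (S.image p)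
  have hne : ∀ v, p v ≠ ⊤ := by
    intro v htop
    obtain ⟨f, hf, hf'⟩ := exists_mem_not_mem_sub hE v
    have : (⟨f, hf⟩ : riemannRochSpace E) ∈ p v := by rw [htop]; trivial
    exact hf' this
  have hbot : (⊥ : Subspace K (riemannRochSpace E)) ≠ ⊤ := by
    intro h
    obtain ⟨v⟩ := (inferInstance : FF1 K F).nonempty_place
    obtain ⟨f, hf, hf0, -⟩ := exists_mem_L_ord_eq hE v
    have : (⟨f, hf⟩ : riemannRochSpace E) ∈ (⊥ : Subspace K (riemannRochSpace E)) := by
      rw [h]; trivial
    rw [Submodule.mem_bot] at this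
    exact hf0 (congrArg Subtype.val this)
  have hs : (⊤ : Subspace K (riemannRochSpace E)) ∉ s := by
    intro h
    rcases Finset.mem_insert.mp h with h | h
    · exact hbot h.symm
    · obtain ⟨v, -, hv⟩ := Finset.mem_image.mp h
      exact hne v hv
  have hcov := Subspace.biUnion_ne_univ_of_top_notMem hs
  obtain ⟨x, hx⟩ := (Set.ne_univ_iff_exists_notMem _).mp hcov
  simp only [Set.mem_iUnion, not_exists] at hx
  have hx0 : x ≠ 0 := by
    intro h0
    refine hx ⊥ (Finset.mem_insert_self _ _) ?_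
    rw [h0]; exact Submodule.zero_mem _
  refine ⟨x, x.2, fun h => hx0 (Subtype.ext h), fun v hv => ?_⟩
  apply ord_eq_of_mem_of_not_mem_sub E v x.2
  intro hmem
  exact hx (p v) (Finset.mem_insert_of_mem (Finset.mem_image_of_mem p hv)) hmem

/-- The zeros of a member `f` of `|E|` (the support of the residual divisor `E + div f`) form a
finite set. -/
theorem finite_setOf_ord_ne {E : Divisor K F} {f : F} (hf0 : f ≠ 0) :
    {v : Place K F | v.ord f ≠ -E v}.Finite := by
  classical
  refine (Finset.finite_toSet (E + divOf f hf0).support).subset ?_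
  intro v hv
  rw [Finset.mem_coe, Finsupp.mem_support_iff]
  simp only [Finsupp.coe_add, Pi.add_apply, divOf_apply]
  intro h
  exact hv (by omega)

/-- **Two members without common zero**: over an infinite constant field, if `deg E ≥ 2g` then
there are `f₁, f₂ ∈ L(E)` such that at every place one of them has order exactly `-E(P)`, and
both have order exactly `-E(P)` at every place of a given finite set `S`. -/
theorem exists_two_members [Infinite K] {E : Divisor K F}
    (hE : 2 * (genusFF K F : ℤ) ≤ Divisor.degree E) (S : Finset (Place K F)) :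
    ∃ f₁ ∈ riemannRochSpace E, ∃ f₂ ∈ riemannRochSpace E, f₁ ≠ 0 ∧ f₂ ≠ 0 ∧
      (∀ v ∈ S, v.ord f₁ = -E v ∧ v.ord f₂ = -E v) ∧
      ∀ v : Place K F, v.ord f₁ = -E v ∨ v.ord f₂ = -E v := by
  classical
  obtain ⟨f₁, hf₁, hf₁0, h₁⟩ := exists_mem_L_forall_ord_eq hE S
  have hfin := finite_setOf_ord_ne (E := E) hf₁0
  obtain ⟨f₂, hf₂, hf₂0, h₂⟩ := exists_mem_L_forall_ord_eq hE (S ∪ hfin.toFinset)
  refine ⟨f₁, hf₁, f₂, hf₂, hf₁0, hf₂0, fun v hv => ⟨h₁ v hv, h₂ v (Finset.mem_union_left _ hv)⟩,
    fun v => ?_⟩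
  by_cases hv : v.ord f₁ = -E v
  · exact Or.inl hv
  · right
    apply h₂ v
    apply Finset.mem_union_right
    rw [Set.Finite.mem_toFinset]
    exact hv

end RR

section Pencil

/-- **Base-point-free pencil trick** (pointwise form).  If `α₁, α₂` have no common zero as
sections of `O(E)` and `β₁ α₂ = β₂ α₁` with `β₁, β₂ ∈ L(B)`, then `(β₁, β₂) = γ (α₁, α₂)` with
`γ ∈ L(B - E)`. -/
theorem pencil_trick {E B : Divisor K F} {α₁ α₂ β₁ β₂ : F} (hα₁ : α₁ ≠ 0) (hα₂ : α₂ ≠ 0)
    (hα : ∀ v : Place K F, v.ord α₁ = -E v ∨ v.ord α₂ = -E v)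
    (hβ₁ : β₁ ∈ riemannRochSpace B) (hβ₂ : β₂ ∈ riemannRochSpace B)
    (h : β₁ * α₂ = β₂ * α₁) :
    ∃ γ ∈ riemannRochSpace (B - E), β₁ = γ * α₁ ∧ β₂ = γ * α₂ := by
  have e1 : β₁ = β₁ / α₁ * α₁ := by field_simp
  have e2 : β₂ = β₁ / α₁ * α₂ := by
    field_simp
    rw [h]
  refine ⟨β₁ / α₁, ?_, e1, e2⟩
  rw [mem_L_iff]
  intro v
  by_cases hγ : β₁ / α₁ = 0
  · exact Or.inl hγ
  right
  have hβ₁0 : β₁ ≠ 0 := by
    rintro rfl
    exact hγ (by simp)
  have hβ₂0 : β₂ ≠ 0 := by
    rw [e2]
    exact mul_ne_zero hγ hα₂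
  simp only [Finsupp.coe_sub, Pi.sub_apply]
  rcases hα v with hv | hv
  · have h1 := (mem_L_iff.mp hβ₁ v).resolve_left hβ₁0
    have h2 : v.ord β₁ = v.ord (β₁ / α₁) + v.ord α₁ := by
      conv_lhs => rw [e1]
      exact v.ord_mul hγ hα₁
    omega
  · have h1 := (mem_L_iff.mp hβ₂ v).resolve_left hβ₂0
    have h2 : v.ord β₂ = v.ord (β₁ / α₁) + v.ord α₂ := by
      conv_lhs => rw [e2]
      exact v.ord_mul hγ hα₂
    omega

/-- Multiplication `L(B - E) × L(E) → L(B)`. -/
theorem mul_mem_L {B E : Divisor K F} {γ α : F} (hγ : γ ∈ riemannRochSpace (B - E))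
    (hα : α ∈ riemannRochSpace E) : γ * α ∈ riemannRochSpace B := by
  rw [mem_L_iff]
  intro v
  by_cases h0 : γ * α = 0
  · exact Or.inl h0
  right
  have hγ0 : γ ≠ 0 := left_ne_zero_of_mul h0
  have hα0 : α ≠ 0 := right_ne_zero_of_mul h0
  have h1 := (mem_L_iff.mp hγ v).resolve_left hγ0
  have h2 := (mem_L_iff.mp hα v).resolve_left hα0
  simp only [Finsupp.coe_sub, Pi.sub_apply] at h1
  rw [v.ord_mul hγ0 hα0]
  omega

end Pencil

end Fermat.Agent.Lib.RR.H439
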