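import Fermat.Agent.Lib.RR.H439.Pencil

/-!
# Riemann–Roch corollaries, part 2: surjectivity of multiplication, effective representatives

(helper439, cell A3 / piece D5.)

* `exists_eq_mul_add_mul`         : `L(B) α₁ + L(B) α₂ = L(B + E)` for a base-point-free pencil
                                    `α₁, α₂ ∈ L(E)` and `deg (B - E) > 2g - 2`.
* `exists_effective`              : `deg D ≥ g` ⟹ `D + div f ≥ 0` for some `f ≠ 0`.
* `eq_of_effective_of_ell_eq_one` : two linearly equivalent effective divisors, one of them with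
                                    `ℓ = 1`, are equal.
* `ell_eq_ell_sub_add_degree`     : `ℓ(B) = ℓ(B - D) + deg D` if `deg (B - D) > 2g - 2`.
-/

set_option autoImplicit false

noncomputable section

open AlgebraicCurve

namespace Fermat.Agent.Lib.RR.H439

open Fermat.Agent.Lib.RR

variable {K F : Type*} [Field K] [Field F] [Algebra K F]

section Maps

variable (B E : Divisor K F) (α₁ α₂ : F)

/-- `(β₁, β₂) ↦ β₁ α₁ + β₂ α₂ : L(B) × L(B) → F`. -/
def pencilMul : (riemannRochSpace B × riemannRochSpace B) →ₗ[K] F :=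
  ((LinearMap.mulRight K α₁).comp (riemannRochSpace B).subtype).coprod
    ((LinearMap.mulRight K α₂).comp (riemannRochSpace B).subtype)

@[simp] theorem pencilMul_apply (x : riemannRochSpace B × riemannRochSpace B) :
    pencilMul B α₁ α₂ x = (x.1 : F) * α₁ + (x.2 : F) * α₂ := by
  simp [pencilMul]

theorem pencilMul_mem {α₁ α₂ : F} (hα₁ : α₁ ∈ riemannRochSpace E) (hα₂ : α₂ ∈ riemannRochSpace E)
    (x : riemannRochSpace B × riemannRochSpace B) :
    pencilMul B α₁ α₂ x ∈ riemannRochSpace (B + E) := by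
  rw [pencilMul_apply]
  have hB : ∀ β ∈ riemannRochSpace B, β ∈ riemannRochSpace ((B + E) - E) := by
    intro β hβ
    rwa [add_sub_cancel_right]
  exact Submodule.add_mem _ (mul_mem_L (hB _ x.1.2) hα₁) (mul_mem_L (hB _ x.2.2) hα₂)

/-- `γ ↦ (γ α₂, -γ α₁) : L(B - E) → L(B) × L(B)` (the Koszul map). -/
def pencilKoszul {α₁ α₂ : F} (hα₁ : α₁ ∈ riemannRochSpace E) (hα₂ : α₂ ∈ riemannRochSpace E) :
    riemannRochSpace (B - E) →ₗ[K] (riemannRochSpace B × riemannRochSpace B) where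
  toFun γ := (⟨(γ : F) * α₂, mul_mem_L γ.2 hα₂⟩, ⟨-((γ : F) * α₁),
    Submodule.neg_mem _ (mul_mem_L γ.2 hα₁)⟩)
  map_add' γ γ' := by
    apply Prod.ext <;> apply Subtype.ext <;> simp <;> ring
  map_smul' c γ := by
    apply Prod.ext <;> apply Subtype.ext <;> simp

theorem pencilKoszul_injective {α₁ α₂ : F} (hα₁ : α₁ ∈ riemannRochSpace E)
    (hα₂ : α₂ ∈ riemannRochSpace E) (hα₂0 : α₂ ≠ 0) :
    Function.Injective (pencilKoszul B E hα₁ hα₂) := by
  intro γ γ' h
  have h1 := congrArg (fun x : riemannRochSpace B × riemannRochSpace B => (x.1 : F)) h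
  simp only [pencilKoszul, LinearMap.coe_mk, AddHom.coe_mk] at h1
  exact Subtype.ext (mul_right_cancel₀ hα₂0 h1)

theorem range_pencilKoszul {α₁ α₂ : F} (hα₁ : α₁ ∈ riemannRochSpace E)
    (hα₂ : α₂ ∈ riemannRochSpace E) (hα₁0 : α₁ ≠ 0) (hα₂0 : α₂ ≠ 0)
    (hα : ∀ v : Place K F, v.ord α₁ = -E v ∨ v.ord α₂ = -E v) :
    LinearMap.range (pencilKoszul B E hα₁ hα₂) = LinearMap.ker (pencilMul B α₁ α₂) := by
  apply le_antisymm
  · rintro _ ⟨γ, rfl⟩
    rw [LinearMap.mem_ker, pencilMul_apply]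
    simp only [pencilKoszul, LinearMap.coe_mk, AddHom.coe_mk]
    ring
  · intro x hx
    rw [LinearMap.mem_ker, pencilMul_apply] at hx
    have h : (x.1 : F) * α₁ = (-(x.2 : F)) * α₂ := by
      rw [neg_mul]; exact eq_neg_of_add_eq_zero_left hx
    obtain ⟨γ, hγ, h1, h2⟩ := pencil_trick (E := E) (B := B) hα₂0 hα₁0 (fun v => (hα v).symm)
      x.1.2 (Submodule.neg_mem _ x.2.2) h
    refine ⟨⟨γ, hγ⟩, ?_⟩
    apply Prod.ext <;> apply Subtype.ext
    · simp only [pencilKoszul, LinearMap.coe_mk, AddHom.coe_mk]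
      exact h1.symm
    · simp only [pencilKoszul, LinearMap.coe_mk, AddHom.coe_mk]
      rw [← h2, neg_neg]

end Maps

section RR

variable [FF1 K F]

/-- **Surjectivity of multiplication** (base-point-free pencil trick + Riemann–Roch).  If
`α₁, α₂ ∈ L(E)` have no common zero and `deg (B - E) > 2g - 2`, then every element of `L(B + E)`
is `β₁ α₁ + β₂ α₂` with `β₁, β₂ ∈ L(B)`. -/
theorem exists_eq_mul_add_mul {E B : Divisor K F} {α₁ α₂ : F}
    (hα₁ : α₁ ∈ riemannRochSpace E) (hα₂ : α₂ ∈ riemannRochSpace E) (hα₁0 : α₁ ≠ 0)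
    (hα₂0 : α₂ ≠ 0) (hα : ∀ v : Place K F, v.ord α₁ = -E v ∨ v.ord α₂ = -E v)
    (hdeg : 2 * (genusFF K F : ℤ) - 2 < Divisor.degree (B - E)) {h : F}
    (hh : h ∈ riemannRochSpace (B + E)) :
    ∃ β₁ ∈ riemannRochSpace B, ∃ β₂ ∈ riemannRochSpace B, h = β₁ * α₁ + β₂ * α₂ := by
  have hE0 : 0 ≤ Divisor.degree E := degree_nonneg_of_mem_L hα₁ hα₁0
  rw [map_sub] at hdeg
  have e1 : (ell (B - E) : ℤ) = Divisor.degree (B - E) + 1 - (genusFF K F : ℤ) :=
    ell_eq_of_degree_gt (by rw [map_sub]; omega)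
  have e2 : (ell B : ℤ) = Divisor.degree B + 1 - (genusFF K F : ℤ) :=
    ell_eq_of_degree_gt (by omega)
  have e3 : (ell (B + E) : ℤ) = Divisor.degree (B + E) + 1 - (genusFF K F : ℤ) :=
    ell_eq_of_degree_gt (by rw [map_add]; omega)
  rw [map_sub] at e1
  rw [map_add] at e3
  -- the map into `L(B + E)`
  let Φ : (riemannRochSpace B × riemannRochSpace B) →ₗ[K] riemannRochSpace (B + E) :=
    (pencilMul B α₁ α₂).codRestrict _ (pencilMul_mem B E hα₁ hα₂)
  have hker : LinearMap.ker Φ = LinearMap.ker (pencilMul B α₁ α₂) :=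
    LinearMap.ker_codRestrict _ _ _
  have hrk := LinearMap.finrank_range_add_finrank_ker Φ
  rw [hker, ← range_pencilKoszul B E hα₁ hα₂ hα₁0 hα₂0 hα,
    LinearMap.finrank_range_of_inj (pencilKoszul_injective B E hα₁ hα₂ hα₂0),
    Module.finrank_prod] at hrk
  have hfr : Module.finrank K (LinearMap.range Φ) = Module.finrank K (riemannRochSpace (B + E)) := by
    unfold ell at e1 e2 e3
    omega
  have htop : LinearMap.range Φ = ⊤ := Submodule.eq_top_of_finrank_eq hfr
  have hmem : (⟨h, hh⟩ : riemannRochSpace (B + E)) ∈ LinearMap.range Φ := by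
    rw [htop]; trivial
  obtain ⟨x, hx⟩ := hmem
  refine ⟨x.1, x.1.2, x.2, x.2.2, ?_⟩
  have := congrArg Subtype.val hx
  simp only [Φ, LinearMap.codRestrict_apply, pencilMul_apply] at this
  exact this.symm

/-- **Effective representatives**: if `deg D ≥ g` there is `f ≠ 0` with `D + div f ≥ 0`. -/
theorem exists_effective {D : Divisor K F} (hD : (genusFF K F : ℤ) ≤ Divisor.degree D) :
    ∃ f : F, f ≠ 0 ∧ ∀ v : Place K F, 0 ≤ D v + v.ord f := by
  have h1 := riemann_inequality_genusFF D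
  have hpos : 0 < ell D := by
    have : (0 : ℤ) < ell D := by omega
    exact_mod_cast this
  unfold ell at hpos
  obtain ⟨x, hx⟩ := (Module.finrank_pos_iff_exists_ne_zero (R := K)).mp hpos
  have hx0 : (x : F) ≠ 0 := fun h => hx (Subtype.ext h)
  refine ⟨x, hx0, fun v => ?_⟩
  have := (mem_L_iff.mp x.2 v).resolve_left hx0
  omega

/-- **Uniqueness of the effective representative of a non-special class**: if `D₁, D₂ ≥ 0`,
`D₁ - D₂ = div h` and `ℓ(D₁) = 1`, then `D₁ = D₂`. -/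
theorem eq_of_effective_of_ell_eq_one {D₁ D₂ : Divisor K F} (h₁ : 0 ≤ D₁) (h₂ : 0 ≤ D₂)
    (hl : ell D₁ = 1) {h : F} (hdiv : ∀ v : Place K F, D₁ v - D₂ v = v.ord h) :
    D₁ = D₂ := by
  have hmem : h⁻¹ ∈ riemannRochSpace D₁ := by
    rw [mem_L_iff]
    intro v
    right
    rw [v.ord_inv, ← hdiv v]
    have := Finsupp.le_def.mp h₂ v
    simp only [Finsupp.coe_zero, Pi.zero_apply] at this
    omega
  rw [H638.L_eq_range_of_ell_eq_one h₁ hl] at hmem
  obtain ⟨c, hc⟩ := hmem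
  rw [Algebra.linearMap_apply] at hc
  ext v
  have h0 : v.ord h⁻¹ = 0 := by rw [← hc]; exact ord_algebraMap v c
  rw [v.ord_inv] at h0
  have := hdiv v
  omega

/-- `ℓ(B) = ℓ(B - D) + deg D` as soon as `deg (B - D) > 2g - 2` and `deg D ≥ 0`. -/
theorem ell_eq_ell_sub_add_degree {B D : Divisor K F} (hD : 0 ≤ Divisor.degree D)
    (hdeg : 2 * (genusFF K F : ℤ) - 2 < Divisor.degree (B - D)) :
    (ell B : ℤ) = ell (B - D) + Divisor.degree D := by
  have e1 : (ell (B - D) : ℤ) = Divisor.degree (B - D) + 1 - (genusFF K F : ℤ) :=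
    ell_eq_of_degree_gt hdeg
  rw [map_sub] at hdeg e1
  have e2 : (ell B : ℤ) = Divisor.degree B + 1 - (genusFF K F : ℤ) :=
    ell_eq_of_degree_gt (by omega)
  omega

end RR

end Fermat.Agent.Lib.RR.H439
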