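import Fermat.Agent.Lib.RR.Basic

/-!
# RR library, layer L4 (repartitions and `H¹(D)`), hypothesis-explicit version (helper439)

Everything is proved on top of layer L1 (`Fermat.Agent.Lib.RR.Basic`, on main).  The two inputs
from layer L3 (Riemann's theorem) enter as explicit hypotheses:

* `hR : ∀ D, deg D + 1 - g ≤ ℓ(D)`         (Riemann's inequality for the constant `g`),
* `h₀ : ℓ(D₀) = deg D₀ + 1 - g`            (the bound is attained at some `D₀`).

Main results (namespace `Fermat.Agent.Lib.RR.H439`):

* `mem_repartitions_iff`   : `α ∈ repartitions K F ↔ {v | ord_v (α v) < 0}.Finite`;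
* `H1_step`                : `H¹(D + P)` finite ⇒ `H¹(D)` finite and
                             `i(D) + ℓ(D + P) = i(D + P) + ℓ(D) + 1`;
* `sup_eq_top_of_attains`  : `ℓ(B) = deg B + 1 - g` ⇒ `𝔸 = 𝔸(B) + F`;
* `finite_H1_and_formula`  : `H¹(D)` is finite-dimensional and
                             `ℓ(D) - dim H¹(D) = deg D + 1 - g` for every divisor `D`.
-/

set_option autoImplicit false

noncomputable section

open AlgebraicCurve

namespace Fermat.Agent.Lib.RR.H439

open Fermat.Agent.Lib.RR

variable {K F : Type*} [Field K] [Field F] [Algebra K F]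

/-! ### L4.0: repartitions = families with finitely many poles -/

/-- A constant has finitely many poles. -/
theorem finite_poles_const [HasPrincipalDivisors K F] (f : F) :
    {v : Place K F | v.ord f < 0}.Finite := by
  rcases eq_or_ne f 0 with rfl | hf
  · simp
  obtain ⟨D, hD, -⟩ := HasPrincipalDivisors.exists_divisor (K := K) f hf
  refine D.support.finite_toSet.subset fun v hv => ?_
  have hv' : v.ord f < 0 := hv
  rw [Finset.mem_coe, Finsupp.mem_support_iff, hD v]
  omega

theorem ord_add_nonneg (v : Place K F) {f g : F} (hf : 0 ≤ v.ord f) (hg : 0 ≤ v.ord g) :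
    0 ≤ v.ord (f + g) :=
  ord_nonneg_of_mem v (add_mem (mem_of_ord_nonneg v hf) (mem_of_ord_nonneg v hg))

theorem ord_mul_nonneg (v : Place K F) {f g : F} (hf : 0 ≤ v.ord f) (hg : 0 ≤ v.ord g) :
    0 ≤ v.ord (f * g) :=
  ord_nonneg_of_mem v (mul_mem (mem_of_ord_nonneg v hf) (mem_of_ord_nonneg v hg))

/-- **L4.0**: the repartitions are exactly the families with finitely many poles. -/
theorem mem_repartitions_iff [HasPrincipalDivisors K F] {α : Place K F → F} :
    α ∈ repartitions K F ↔ {v : Place K F | v.ord (α v) < 0}.Finite := by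
  refine ⟨fun h => ?_, mem_repartitions_of_finite_ord⟩
  unfold repartitions at h
  induction h using Algebra.adjoin_induction with
  | mem x hx =>
    have hx' : {v : Place K F | ¬v.adicValuation (x v) ≤ 1}.Finite := hx
    rwa [show {v : Place K F | ¬v.adicValuation (x v) ≤ 1}
        = {v : Place K F | v.ord (x v) < 0} from
      Set.ext fun v => v.not_adicValuation_le_one_iff] at hx'
  | algebraMap f => exact finite_poles_const f
  | add x y _ _ hx hy =>
    refine (hx.union hy).subset fun v hv => ?_
    have hv' : v.ord (x v + y v) < 0 := hv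
    by_contra hcon
    rw [Set.mem_union, not_or] at hcon
    have h1 : 0 ≤ v.ord (x v) := not_lt.mp hcon.1
    have h2 : 0 ≤ v.ord (y v) := not_lt.mp hcon.2
    have := ord_add_nonneg v h1 h2
    omega
  | mul x y _ _ hx hy =>
    refine (hx.union hy).subset fun v hv => ?_
    have hv' : v.ord (x v * y v) < 0 := hv
    by_contra hcon
    rw [Set.mem_union, not_or] at hcon
    have h1 : 0 ≤ v.ord (x v) := not_lt.mp hcon.1
    have h2 : 0 ≤ v.ord (y v) := not_lt.mp hcon.2
    have := ord_mul_nonneg v h1 h2
    omega

/-! ### The repartition supported at one place -/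

open scoped Classical in
/-- The repartition with value `t` at `v` and `0` elsewhere. -/
def single (v : Place K F) (t : F) : ↥(repartitions K F) :=
  ⟨Pi.single v t, mem_repartitions_of_finite_ord <|
    (Set.finite_singleton v).subset fun w hw => by
      have hw' : w.ord ((Pi.single v t : Place K F → F) w) < 0 := hw
      by_contra hne
      rw [Set.mem_singleton_iff] at hne
      rw [Pi.single_eq_of_ne hne, Place.ord_zero] at hw'
      exact lt_irrefl _ hw'⟩

@[simp] theorem single_apply_self (v : Place K F) (t : F) :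
    (single v t : Place K F → F) v = t := by
  classical
  simp [single]

theorem single_apply_of_ne {v w : Place K F} (h : w ≠ v) (t : F) :
    (single v t : Place K F → F) w = 0 := by
  classical
  simp [single, Pi.single_eq_of_ne h]

theorem coe_smul_apply (c : K) (α : ↥(repartitions K F)) (w : Place K F) :
    ((c • α : ↥(repartitions K F)) : Place K F → F) w
      = algebraMap K F c * (α : Place K F → F) w := by
  show (c • (α : Place K F → F)) w = _
  rw [Pi.smul_apply, Algebra.smul_def]

theorem coe_sub_apply (α β : ↥(repartitions K F)) (w : Place K F) :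
    ((α - β : ↥(repartitions K F)) : Place K F → F) w
      = (α : Place K F → F) w - (β : Place K F → F) w := rfl

theorem coe_add_apply (α β : ↥(repartitions K F)) (w : Place K F) :
    ((α + β : ↥(repartitions K F)) : Place K F → F) w
      = (α : Place K F → F) w + (β : Place K F → F) w := rfl

theorem single_mem_repartitionsOf (v : Place K F) (D : Divisor K F) {t : F}
    (ht : v.ord t = -(D v + 1)) : single v t ∈ repartitionsOf (D + prim v) := by
  rw [mem_repartitionsOf_iff]
  intro w
  by_cases hw : w = v
  · subst hw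
    right
    rw [single_apply_self, ht]
    simp only [Finsupp.coe_add, Pi.add_apply, prim_apply_self]
    omega
  · left
    exact single_apply_of_ne hw t

/-! ### Lemma A: `𝔸(D + P) = 𝔸(D) + K α₀` -/

theorem repartitionsOf_add_prim_le (v : Place K F) (hv : v.deg = 1) (D : Divisor K F) {t : F}
    (ht0 : t ≠ 0) (ht : v.ord t = -(D v + 1)) :
    repartitionsOf (D + prim v) ≤ repartitionsOf D ⊔ Submodule.span K {single v t} := by
  intro β hβ
  rw [mem_repartitionsOf_iff] at hβ
  obtain ⟨b, hb⟩ : ∃ b : F, b = (β : Place K F → F) v := ⟨_, rfl⟩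
  have hg : 0 ≤ v.ord (b * t⁻¹) := by
    rcases eq_or_ne b 0 with h0 | h0
    · rw [h0, zero_mul, Place.ord_zero]
    · have h1 := (hβ v).resolve_left (hb ▸ h0)
      simp only [Finsupp.coe_add, Pi.add_apply, prim_apply_self] at h1
      rw [← hb] at h1
      rw [v.ord_mul h0 (inv_ne_zero ht0), v.ord_inv, ht]
      omega
  obtain ⟨c, hc⟩ := exists_const_sub v hv hg
  have hdecomp : β = (β - c • single v t) + c • single v t := by abel
  rw [hdecomp]
  refine Submodule.add_mem _ (Submodule.mem_sup_left ?_)
    (Submodule.mem_sup_right (Submodule.smul_mem _ _ (Submodule.mem_span_singleton_self _)))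
  rw [mem_repartitionsOf_iff]
  intro w
  rw [coe_sub_apply, coe_smul_apply]
  by_cases hw : w = v
  · subst hw
    rw [single_apply_self]
    have hfac : b - algebraMap K F c * t = (b * t⁻¹ - algebraMap K F c) * t := by
      field_simp
    rw [← hb, hfac]
    rcases hc with hc | hc
    · left; rw [hc, zero_mul]
    · rcases eq_or_ne (b * t⁻¹ - algebraMap K F c) 0 with h0 | h0
      · left; rw [h0, zero_mul]
      right
      rw [w.ord_mul h0 ht0, ht]
      omega
  · rw [single_apply_of_ne hw, mul_zero, sub_zero]
    have := hβ w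
    simpa [prim_apply_of_ne hw] using this

/-! ### Lemma B: `α₀ ∈ 𝔸(D) + F` iff `L(D + P) ≠ L(D)` -/

theorem ord_eq_of_mem_of_not_mem (v : Place K F) (D : Divisor K F) {f₀ : F}
    (hf₀ : f₀ ∈ riemannRochSpace (D + prim v)) (hf₀' : f₀ ∉ riemannRochSpace D) :
    f₀ ≠ 0 ∧ v.ord f₀ = -(D v + 1) := by
  have hf₀0 : f₀ ≠ 0 := fun h => hf₀' (h ▸ Submodule.zero_mem _)
  refine ⟨hf₀0, ?_⟩
  have h1 := (mem_L_iff.mp hf₀ v).resolve_left hf₀0
  simp only [Finsupp.coe_add, Pi.add_apply, prim_apply_self] at h1
  by_contra hne
  apply hf₀'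
  rw [mem_L_iff]
  intro w
  right
  by_cases hw : w = v
  · subst hw; omega
  · have h2 := (mem_L_iff.mp hf₀ w).resolve_left hf₀0
    simpa [prim_apply_of_ne hw] using h2

/-- The constant repartition attached to `f`. -/
def const (f : F) : ↥(repartitions K F) := algebraMap F ↥(repartitions K F) f

@[simp] theorem const_apply (f : F) (w : Place K F) :
    (const (K := K) f : Place K F → F) w = f := rfl

theorem const_mem_principal (f : F) : const (K := K) f ∈ principalRepartitions K F :=
  mem_principalRepartitions_iff.mpr ⟨f, rfl⟩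

theorem single_mem_sup_of_not_le (v : Place K F) (hv : v.deg = 1) (D : Divisor K F) {t : F}
    (ht0 : t ≠ 0) (ht : v.ord t = -(D v + 1))
    (h : ¬ riemannRochSpace (D + prim v) ≤ riemannRochSpace D) :
    single v t ∈ repartitionsOf D ⊔ principalRepartitions K F := by
  obtain ⟨f₀, hf₀, hf₀'⟩ := SetLike.not_le_iff_exists.mp h
  obtain ⟨hf₀0, hord⟩ := ord_eq_of_mem_of_not_mem v D hf₀ hf₀'
  have hg0 : v.ord (f₀ * t⁻¹) = 0 := by
    rw [v.ord_mul hf₀0 (inv_ne_zero ht0), v.ord_inv, ht, hord]; omega
  obtain ⟨c, hc⟩ := exists_const_sub v hv (le_of_eq hg0.symm)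
  have hc0 : c ≠ 0 := by
    rintro rfl
    rw [map_zero, sub_zero] at hc
    rcases hc with hc | hc
    · exact (mul_ne_zero hf₀0 (inv_ne_zero ht0)) hc
    · omega
  have hcF : algebraMap K F c ≠ 0 := by simpa using hc0
  -- `α₀ = c⁻¹ f₀ - (c⁻¹ f₀ - α₀)`
  have hdecomp : single v t
      = (single v t - c⁻¹ • const (K := K) f₀) + c⁻¹ • const (K := K) f₀ := by abel
  rw [hdecomp]
  refine Submodule.add_mem _ (Submodule.mem_sup_left ?_)
    (Submodule.mem_sup_right (Submodule.smul_mem _ _ (const_mem_principal f₀)))
  rw [mem_repartitionsOf_iff]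
  intro w
  rw [coe_sub_apply, coe_smul_apply, const_apply]
  by_cases hw : w = v
  · subst hw
    rw [single_apply_self]
    have hfac : t - algebraMap K F c⁻¹ * f₀
        = -(algebraMap K F c⁻¹ * ((f₀ * t⁻¹ - algebraMap K F c) * t)) := by
      rw [map_inv₀]
      field_simp
      ring
    rw [hfac]
    rcases hc with hc | hc
    · left; rw [hc, zero_mul, mul_zero, neg_zero]
    · right
      have hne : f₀ * t⁻¹ - algebraMap K F c ≠ 0 := by
        intro h0; rw [h0, Place.ord_zero] at hc; exact lt_irrefl _ hc
      have hcinv : algebraMap K F c⁻¹ ≠ 0 := by simpa using hc0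
      rw [ord_neg, w.ord_mul hcinv (mul_ne_zero hne ht0), ord_algebraMap, w.ord_mul hne ht0, ht]
      omega
  · rw [single_apply_of_ne hw, zero_sub]
    have h2 := (mem_L_iff.mp hf₀ w).resolve_left hf₀0
    right
    have hcinv : algebraMap K F c⁻¹ ≠ 0 := by simpa using hc0
    rw [ord_neg, w.ord_mul hcinv hf₀0, ord_algebraMap]
    simpa [prim_apply_of_ne hw] using h2

theorem not_le_of_single_mem_sup (v : Place K F) (D : Divisor K F) {t : F}
    (ht0 : t ≠ 0) (ht : v.ord t = -(D v + 1))
    (h : single v t ∈ repartitionsOf D ⊔ principalRepartitions K F) :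
    ¬ riemannRochSpace (D + prim v) ≤ riemannRochSpace D := by
  obtain ⟨β, hβ, γ, hγ, hsum⟩ := Submodule.mem_sup.mp h
  obtain ⟨f, hf⟩ := mem_principalRepartitions_iff.mp hγ
  rw [mem_repartitionsOf_iff] at hβ
  -- values
  have hval : ∀ w, (single v t : Place K F → F) w = (β : Place K F → F) w + f := by
    intro w
    have := congrArg (fun x : ↥(repartitions K F) => (x : Place K F → F) w) hsum
    simp only [coe_add_apply, hf] at this
    exact this.symm
  have hv := hval v
  rw [single_apply_self] at hv
  -- `f = t - β v` has order exactly `-(D v + 1)` at `v`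
  have hfv : f = t + -(β : Place K F → F) v := by rw [hv]; ring
  have hford : f ≠ 0 ∧ v.ord f = -(D v + 1) := by
    rcases eq_or_ne ((β : Place K F → F) v) 0 with h0 | h0
    · rw [hfv, h0, neg_zero, add_zero]; exact ⟨ht0, ht⟩
    · have h1 := (hβ v).resolve_left h0
      have hlt : v.ord t < v.ord (-(β : Place K F → F) v) := by rw [ord_neg, ht]; omega
      have := ord_add_eq_of_lt v ht0 (neg_ne_zero.mpr h0) hlt
      rw [← hfv] at this
      refine ⟨?_, this.trans ht⟩
      intro hf0
      rw [hf0, Place.ord_zero, ht] at this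
      rw [hf0] at hfv
      have h2 : (β : Place K F → F) v = t := by
        have := congrArg (fun x => x + (β : Place K F → F) v) hfv
        simpa using this
      rw [h2, ht] at h1
      omega
  intro hle
  have hfL : f ∈ riemannRochSpace (D + prim v) := by
    rw [mem_L_iff]
    intro w
    right
    by_cases hw : w = v
    · subst hw
      simp only [Finsupp.coe_add, Pi.add_apply, prim_apply_self]
      have := hford.2
      omega
    · have hw' := hval w
      rw [single_apply_of_ne hw] at hw'
      have hβw : (β : Place K F → F) w = -f := by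
        have := congrArg (fun x => x - f) hw'
        simpa using this.symm
      have hβ0 : (β : Place K F → F) w ≠ 0 := by rw [hβw]; exact neg_ne_zero.mpr hford.1
      have h1 := (hβ w).resolve_left hβ0
      rw [hβw, ord_neg] at h1
      simpa [prim_apply_of_ne hw] using h1
  have := (mem_L_iff.mp (hle hfL) v).resolve_left hford.1
  rw [hford.2] at this
  omega

theorem single_mem_sup_iff (v : Place K F) (hv : v.deg = 1) (D : Divisor K F) {t : F}
    (ht0 : t ≠ 0) (ht : v.ord t = -(D v + 1)) :
    single v t ∈ repartitionsOf D ⊔ principalRepartitions K F ↔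
      ¬ riemannRochSpace (D + prim v) ≤ riemannRochSpace D :=
  ⟨not_le_of_single_mem_sup v D ht0 ht, single_mem_sup_of_not_le v hv D ht0 ht⟩

/-- A function with prescribed order at `v`. -/
theorem exists_ord_eq (v : Place K F) (n : ℤ) : ∃ t : F, t ≠ 0 ∧ v.ord t = n := by
  obtain ⟨π, hπ⟩ := exists_ord_eq_one v
  have hπ0 : π ≠ 0 := ne_zero_of_ord_ne_zero v (by rw [hπ]; exact one_ne_zero)
  exact ⟨π ^ n, zpow_ne_zero n hπ0, by rw [v.ord_zpow, hπ, mul_one]⟩

end Fermat.Agent.Lib.RR.H439
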